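import Mathlib
import Fermat.Prelude.Def_EllipticCurve_FrobeniusTrace

set_option autoImplicit false
set_option linter.style.haveILetI false

namespace Fermat.Agent.S54

open scoped Pointwise

noncomputable section

local notation "Qb" => AlgebraicClosure ℚ
local notation "Γ" => (AlgebraicClosure ℚ ≃ₐ[ℚ] AlgebraicClosure ℚ)
local notation "𝔹" => (integralClosure ℤ (AlgebraicClosure ℚ))

theorem isAlgClosure_rat : IsAlgClosure ℚ (AlgebraicClosure ℚ) :=
  (inferInstance : @IsAlgClosure ℚ (AlgebraicClosure ℚ) _ _ (AlgebraicClosure.instAlgebra ℚ) _)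

theorem isAlgebraic_rat : Algebra.IsAlgebraic ℚ (AlgebraicClosure ℚ) :=
  haveI := isAlgClosure_rat
  IsAlgClosure.isAlgebraic

theorem isIntegral_rat : Algebra.IsIntegral ℚ (AlgebraicClosure ℚ) :=
  haveI := isAlgebraic_rat
  inferInstance

theorem isGalois_rat : IsGalois ℚ (AlgebraicClosure ℚ) := by
  haveI := isAlgClosure_rat
  haveI := isAlgebraic_rat
  haveI : Normal ℚ Qb := IsAlgClosure.normal ℚ Qb
  exact IsGalois.mk

theorem compactSpace_gal : CompactSpace Γ :=
  haveI := isGalois_rat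
  inferInstance

theorem totallyDisconnectedSpace_gal : TotallyDisconnectedSpace Γ :=
  haveI := isIntegral_rat
  inferInstance

theorem continuousSMul_gal :
    @ContinuousSMul Γ 𝔹 _ _ ⊥ := by
  letI : TopologicalSpace 𝔹 := ⊥
  haveI : DiscreteTopology 𝔹 := ⟨rfl⟩
  haveI := isIntegral_rat
  rw [continuousSMul_iff_stabilizer_isOpen]
  intro b
  convert stabilizer_isOpen_of_isIntegral (K := ℚ) (L := Qb) (b : Qb) using 1
  ext g
  simp only [SetLike.mem_coe, MulAction.mem_stabilizer_iff]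
  constructor
  · intro h
    exact congrArg Subtype.val h
  · intro h
    exact Subtype.ext h

theorem isInvariant_gal : Algebra.IsInvariant ℤ 𝔹 Γ := by
  haveI := isGalois_rat
  refine ⟨fun b hb => ?_⟩
  have h1 : (b : Qb) ∈ Set.range (algebraMap ℚ Qb) := by
    rw [InfiniteGalois.mem_range_algebraMap_iff_fixed]
    intro g
    exact congrArg Subtype.val (hb g)
  obtain ⟨q, hq⟩ := h1
  have h2 : IsIntegral ℤ (b : Qb) := b.2
  rw [← hq] at h2
  have h3 : IsIntegral ℤ q := by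
    rwa [isIntegral_algebraMap_iff (FaithfulSMul.algebraMap_injective ℚ Qb)] at h2
  obtain ⟨n, hn⟩ := IsIntegrallyClosed.isIntegral_iff.mp h3
  refine ⟨n, Subtype.ext ?_⟩
  rw [← hq, ← hn]
  simp

/-! ### The valuation subring and the prime of the ring of algebraic integers below it -/

theorem integralClosure_le (A : ValuationSubring Qb) (b : 𝔹) : (b : Qb) ∈ A := by
  have hb : IsIntegral ℤ (b : Qb) := b.2
  have hb' : IsIntegral A (b : Qb) := hb.tower_top
  obtain ⟨y, hy⟩ := IsIntegrallyClosed.isIntegral_iff.mp hb'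
  rw [← hy]
  exact y.2

/-- The inclusion of the ring of algebraic integers into a valuation subring. -/
def incl (A : ValuationSubring Qb) : 𝔹 →+* A where
  toFun b := ⟨b.1, integralClosure_le A b⟩
  map_one' := rfl
  map_mul' _ _ := rfl
  map_zero' := rfl
  map_add' _ _ := rfl

/-- The prime ideal of the ring of algebraic integers cut out by a valuation subring. -/
def primeOf (A : ValuationSubring Qb) : Ideal 𝔹 :=
  (IsLocalRing.maximalIdeal A).comap (incl A)

instance primeOf_isPrime (A : ValuationSubring Qb) : (primeOf A).IsPrime :=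
  Ideal.comap_isPrime _ _

theorem mem_primeOf_iff (A : ValuationSubring Qb) (b : 𝔹) :
    b ∈ primeOf A ↔ (b : Qb) ∈ A.nonunits := by
  rw [primeOf, Ideal.mem_comap, ← ValuationSubring.coe_mem_nonunits_iff]
  rfl

theorem mul_mem_nonunits (A : ValuationSubring Qb) {a x : Qb} (ha : a ∈ A.nonunits)
    (hx : x ∈ A) : a * x ∈ A.nonunits := by
  rw [ValuationSubring.mem_nonunits_iff] at ha ⊢
  rw [map_mul]
  have hx' := (A.valuation_le_one_iff x).mpr hx
  calc A.valuation a * A.valuation x ≤ A.valuation a * 1 := by gcongr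
    _ = A.valuation a := mul_one _
    _ < 1 := ha

theorem mem_integralClosure_of_isIntegral {y : Qb} (hy : IsIntegral 𝔹 y) :
    ∃ c : 𝔹, (c : Qb) = y := by
  have : IsIntegral ℤ y := isIntegral_trans y hy
  exact ⟨⟨y, this⟩, rfl⟩

open Polynomial in
theorem exists_mul_eq_aux (A : ValuationSubring Qb) (x : Qb) (hx : x ∈ A) :
    ∀ (n : ℕ) (f : Polynomial 𝔹), f.natDegree ≤ n → aeval x f = 0 →
      f.map (Ideal.Quotient.mk (primeOf A)) ≠ 0 →
      ∃ b s : 𝔹, s ∉ primeOf A ∧ x * (s : Qb) = (b : Qb) := by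
  intro n
  induction n with
  | zero =>
    intro f hf h0 hne
    exfalso
    rw [Polynomial.eq_C_of_natDegree_le_zero hf] at h0 hne
    rw [aeval_C] at h0
    have : f.coeff 0 = 0 := by
      apply Subtype.ext
      exact h0
    rw [this] at hne
    simp at hne
  | succ n ih =>
    intro f hf h0 hne
    by_cases hdeg : f.natDegree ≤ n
    · exact ih f hdeg h0 hne
    have hdeg' : f.natDegree = n + 1 := by omega
    obtain ⟨c, hc⟩ := mem_integralClosure_of_isIntegral (isIntegral_leadingCoeff_smul f x h0)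
    have hc' : (c : Qb) = (f.leadingCoeff : Qb) * x := by
      rw [hc, Algebra.smul_def]
      rfl
    by_cases ha : f.leadingCoeff ∈ primeOf A
    · -- the leading coefficient is in the prime: lower the degree
      have hcQ : c ∈ primeOf A := by
        rw [mem_primeOf_iff, hc']
        exact mul_mem_nonunits A ((mem_primeOf_iff A _).mp ha) hx
      let g : Polynomial 𝔹 := f.eraseLead + C c * X ^ n
      have hg1 : g.natDegree ≤ n := by
        apply (natDegree_add_le _ _).trans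
        apply max_le
        · have := eraseLead_natDegree_le f
          omega
        · exact natDegree_C_mul_X_pow_le c n
      have hf_eq : f = f.eraseLead + C f.leadingCoeff * X ^ (n + 1) := by
        conv_lhs => rw [← eraseLead_add_C_mul_X_pow f, hdeg']
      have hg2 : aeval x g = 0 := by
        have h1 : aeval x f.eraseLead = - ((f.leadingCoeff : Qb) * x ^ (n + 1)) := by
          have h2 := h0
          rw [hf_eq, map_add, map_mul, aeval_C, map_pow, aeval_X] at h2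
          rw [eq_neg_iff_add_eq_zero]
          exact h2
        simp only [g, map_add, map_mul, aeval_C, map_pow, aeval_X, h1]
        have : (algebraMap 𝔹 Qb) c = (c : Qb) := rfl
        rw [this, hc']
        ring
      have hg3 : g.map (Ideal.Quotient.mk (primeOf A)) ≠ 0 := by
        have h1 : g.map (Ideal.Quotient.mk (primeOf A)) =
            f.map (Ideal.Quotient.mk (primeOf A)) := by
          conv_rhs => rw [hf_eq]
          simp only [g, Polynomial.map_add, Polynomial.map_mul, Polynomial.map_C,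
            Polynomial.map_pow, Polynomial.map_X]
          rw [Ideal.Quotient.eq_zero_iff_mem.mpr hcQ, Ideal.Quotient.eq_zero_iff_mem.mpr ha]
          simp
        rw [h1]
        exact hne
      exact ih g hg1 hg2 hg3
    · exact ⟨c, f.leadingCoeff, ha, by rw [hc', mul_comm]⟩

theorem natCast_mem_primeOf (A : ValuationSubring Qb) (ℓ : ℕ) (hA : A.LiesOverPrime ℓ) :
    ((ℓ : ℤ) : 𝔹) ∈ primeOf A := by
  rw [mem_primeOf_iff]
  have : (((ℓ : ℤ) : 𝔹) : Qb) = (ℓ : Qb) := by simp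
  rw [this]
  exact hA

theorem dvd_of_intCast_mem_primeOf (A : ValuationSubring Qb) (ℓ : ℕ) (hℓ : ℓ.Prime)
    (hA : A.LiesOverPrime ℓ) (n : ℤ) (hn : (n : 𝔹) ∈ primeOf A) : (ℓ : ℤ) ∣ n := by
  by_contra hdvd
  have hcop : IsCoprime (ℓ : ℤ) n :=
    (Nat.prime_iff_prime_int.mp hℓ).coprime_iff_not_dvd.mpr hdvd
  obtain ⟨u, v, huv⟩ := hcop
  have h1 : ((u * (ℓ : ℤ) + v * n : ℤ) : 𝔹) ∈ primeOf A := by
    push_cast
    exact Ideal.add_mem _ (Ideal.mul_mem_left _ _ (natCast_mem_primeOf A ℓ hA))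
      (Ideal.mul_mem_left _ _ hn)
  rw [huv] at h1
  have h2 : (1 : 𝔹) ∈ primeOf A := by simpa using h1
  exact (primeOf_isPrime A).ne_top ((Ideal.eq_top_iff_one _).mpr h2)

open Polynomial in
theorem exists_mul_eq (A : ValuationSubring Qb) (ℓ : ℕ) (hℓ : ℓ.Prime)
    (hA : A.LiesOverPrime ℓ) (x : Qb) (hx : x ∈ A) :
    ∃ b s : 𝔹, s ∉ primeOf A ∧ x * (s : Qb) = (b : Qb) := by
  haveI := isAlgebraic_rat
  have halg : IsAlgebraic ℤ x :=
    (IsFractionRing.isAlgebraic_iff ℤ ℚ Qb).mpr (Algebra.IsAlgebraic.isAlgebraic x)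
  obtain ⟨p, hp0, hpx⟩ := halg
  have hprim := Polynomial.isPrimitive_primPart p
  have hroot : aeval x p.primPart = 0 := Polynomial.aeval_primPart_eq_zero hp0 hpx
  refine exists_mul_eq_aux A x hx _ (p.primPart.map (algebraMap ℤ 𝔹)) le_rfl ?_ ?_
  · rw [aeval_map_algebraMap]
    exact hroot
  · intro h0
    have hdvd : C (ℓ : ℤ) ∣ p.primPart := by
      rw [Polynomial.C_dvd_iff_dvd_coeff]
      intro i
      apply dvd_of_intCast_mem_primeOf A ℓ hℓ hA
      have h1 := congrArg (fun q => q.coeff i) h0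
      simp only [coeff_map, coeff_zero] at h1
      rw [Ideal.Quotient.eq_zero_iff_mem] at h1
      simpa using h1
    have hu : IsUnit (ℓ : ℤ) := hprim _ hdvd
    exact (Nat.prime_iff_prime_int.mp hℓ).not_isUnit hu

/-! ### Elements of the stabilizer of the prime stabilize the valuation subring -/

theorem smul_not_mem_primeOf (A : ValuationSubring Qb) (g : Γ)
    (hg : g ∈ MulAction.stabilizer Γ (primeOf A)) {s : 𝔹} (hs : s ∉ primeOf A) :
    g • s ∉ primeOf A := by
  intro h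
  rw [MulAction.mem_stabilizer_iff] at hg
  rw [← hg, Ideal.smul_mem_pointwise_smul_iff] at h
  exact hs h

theorem apply_mem_of_mem_stabilizer (A : ValuationSubring Qb) (ℓ : ℕ) (hℓ : ℓ.Prime)
    (hA : A.LiesOverPrime ℓ) (g : Γ) (hg : g ∈ MulAction.stabilizer Γ (primeOf A))
    {x : Qb} (hx : x ∈ A) : g x ∈ A := by
  obtain ⟨b, s, hs, hxs⟩ := exists_mul_eq A ℓ hℓ hA x hx
  have hgs := smul_not_mem_primeOf A g hg hs
  rw [mem_primeOf_iff, ValuationSubring.mem_nonunits_iff_or, not_or, not_not] at hgs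
  have h1 : g x * ((g • s : 𝔹) : Qb) = ((g • b : 𝔹) : Qb) := by
    have := congrArg g hxs
    rw [map_mul] at this
    exact this
  have h2 : g x = ((g • b : 𝔹) : Qb) * ((g • s : 𝔹) : Qb)⁻¹ := by
    rw [← h1, mul_assoc, mul_inv_cancel₀ hgs.1, mul_one]
  rw [h2]
  exact A.mul_mem _ _ (integralClosure_le A _) hgs.2

theorem mem_decompositionSubgroup_of_mem_stabilizer (A : ValuationSubring Qb) (ℓ : ℕ)
    (hℓ : ℓ.Prime) (hA : A.LiesOverPrime ℓ) (g : Γ)
    (hg : g ∈ MulAction.stabilizer Γ (primeOf A)) :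
    g ∈ A.decompositionSubgroup ℚ := by
  rw [MulAction.mem_stabilizer_iff]
  apply le_antisymm
  · intro x hx
    rw [ValuationSubring.mem_pointwise_smul_iff_inv_smul_mem] at hx
    have := apply_mem_of_mem_stabilizer A ℓ hℓ hA g hg hx
    rwa [AlgEquiv.smul_def, ← AlgEquiv.mul_apply, mul_inv_cancel, AlgEquiv.one_apply] at this
  · intro x hx
    rw [ValuationSubring.mem_pointwise_smul_iff_inv_smul_mem]
    exact apply_mem_of_mem_stabilizer A ℓ hℓ hA g⁻¹ (Subgroup.inv_mem _ hg) hx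

/-! ### The Frobenius element -/

theorem primeOf_liesOver (A : ValuationSubring Qb) (ℓ : ℕ) (hℓ : ℓ.Prime)
    (hA : A.LiesOverPrime ℓ) : (primeOf A).LiesOver (Ideal.span {(ℓ : ℤ)}) := by
  constructor
  have hmax : (Ideal.span {(ℓ : ℤ)}).IsMaximal :=
    PrincipalIdealRing.isMaximal_of_irreducible (Nat.prime_iff_prime_int.mp hℓ).irreducible
  apply hmax.eq_of_le
  · exact (Ideal.comap_isPrime (algebraMap ℤ 𝔹) (primeOf A)).ne_top
  · rw [Ideal.span_singleton_le_iff_mem]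
    exact natCast_mem_primeOf A ℓ hA

theorem primeOf_isMaximal (A : ValuationSubring Qb) (ℓ : ℕ) (hℓ : ℓ.Prime)
    (hA : A.LiesOverPrime ℓ) : (primeOf A).IsMaximal := by
  have hmax : (Ideal.span {(ℓ : ℤ)}).IsMaximal :=
    PrincipalIdealRing.isMaximal_of_irreducible (Nat.prime_iff_prime_int.mp hℓ).irreducible
  have hover := (primeOf_liesOver A ℓ hℓ hA).over
  apply Ideal.isMaximal_of_isIntegral_of_isMaximal_comap (R := ℤ)
  change ((primeOf A).under ℤ).IsMaximal
  rw [← hover]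
  exact hmax

theorem charP_quotient (A : ValuationSubring Qb) (ℓ : ℕ) (hℓ : ℓ.Prime)
    (hA : A.LiesOverPrime ℓ) : CharP (𝔹 ⧸ primeOf A) ℓ := by
  rw [CharP.charP_iff_prime_eq_zero hℓ]
  have h := Ideal.Quotient.eq_zero_iff_mem.mpr (natCast_mem_primeOf A ℓ hA)
  simpa using h

theorem frobenius_quotient_surjective (A : ValuationSubring Qb) (ℓ : ℕ) (hℓ : ℓ.Prime)
    (y : 𝔹 ⧸ primeOf A) : ∃ z : 𝔹 ⧸ primeOf A, z ^ ℓ = y := by
  obtain ⟨b, rfl⟩ := Ideal.Quotient.mk_surjective y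
  obtain ⟨z, hz⟩ := IsAlgClosed.exists_pow_nat_eq (b : Qb) hℓ.pos
  have hzint : IsIntegral ℤ z := by
    apply IsIntegral.of_pow hℓ.pos
    rw [hz]
    exact b.2
  refine ⟨Ideal.Quotient.mk _ ⟨z, hzint⟩, ?_⟩
  rw [← map_pow]
  congr 1
  exact Subtype.ext hz

theorem residue_incl_smul (A : ValuationSubring Qb) (ℓ : ℕ) (g : Γ)
    (hg : ∀ b : 𝔹, Ideal.Quotient.mk (primeOf A) (g • b) = (Ideal.Quotient.mk (primeOf A) b) ^ ℓ)
    (b : 𝔹) :
    IsLocalRing.residue A (incl A (g • b)) = (IsLocalRing.residue A (incl A b)) ^ ℓ := by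
  have h1 := hg b
  rw [← map_pow, Ideal.Quotient.eq] at h1
  have h2 : incl A (g • b - b ^ ℓ) ∈ IsLocalRing.maximalIdeal A := h1
  rw [map_sub, map_pow, ← IsLocalRing.residue_eq_zero_iff, map_sub, sub_eq_zero, map_pow] at h2
  exact h2

theorem isFrobeniusAt_of_stabilizer (A : ValuationSubring Qb) (ℓ : ℕ) (hℓ : ℓ.Prime)
    (hA : A.LiesOverPrime ℓ) (g : Γ) (hgs : g ∈ MulAction.stabilizer Γ (primeOf A))
    (hg : ∀ b : 𝔹, Ideal.Quotient.mk (primeOf A) (g • b) = (Ideal.Quotient.mk (primeOf A) b) ^ ℓ) :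
    A.IsFrobeniusAt g ℓ := by
  refine ⟨mem_decompositionSubgroup_of_mem_stabilizer A ℓ hℓ hA g hgs, ?_⟩
  intro xbar
  obtain ⟨x, rfl⟩ := IsLocalRing.residue_surjective xbar
  rw [← IsLocalRing.ResidueField.residue_smul]
  obtain ⟨b, s, hs, hxs⟩ := exists_mul_eq A ℓ hℓ hA x x.2
  set gD : A.decompositionSubgroup ℚ :=
    ⟨g, mem_decompositionSubgroup_of_mem_stabilizer A ℓ hℓ hA g hgs⟩ with hgD
  have h1 : x * incl A s = incl A b := Subtype.ext hxs
  have h2 : (gD • x) * incl A (g • s) = incl A (g • b) := by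
    apply Subtype.ext
    have := congrArg g hxs
    rw [map_mul] at this
    exact this
  have h3 := congrArg (IsLocalRing.residue A) h2
  rw [map_mul, residue_incl_smul A ℓ g hg, residue_incl_smul A ℓ g hg, ← h1,
    map_mul, mul_pow] at h3
  have hs' : IsLocalRing.residue A (incl A s) ≠ 0 := by
    rw [Ne, IsLocalRing.residue_eq_zero_iff]
    exact hs
  exact mul_right_cancel₀ (pow_ne_zero ℓ hs') h3

/-- Existence of Frobenius elements at a valuation subring of `ℚ̄` over a prime `ℓ`. -/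
theorem exists_isFrobeniusAt (A : ValuationSubring (AlgebraicClosure ℚ)) (ℓ : ℕ) (hℓ : ℓ.Prime)
    (hA : A.LiesOverPrime ℓ) :
    ∃ σ : AlgebraicClosure ℚ ≃ₐ[ℚ] AlgebraicClosure ℚ, A.IsFrobeniusAt σ ℓ := by
  haveI hLO : (primeOf A).LiesOver (Ideal.span {(ℓ : ℤ)}) := primeOf_liesOver A ℓ hℓ hA
  haveI hchar : CharP (𝔹 ⧸ primeOf A) ℓ := charP_quotient A ℓ hℓ hA
  haveI hmax : (primeOf A).IsMaximal := primeOf_isMaximal A ℓ hℓ hA
  haveI hexp : ExpChar (𝔹 ⧸ primeOf A) ℓ := ExpChar.prime hℓ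
  let F : (𝔹 ⧸ primeOf A) →ₐ[ℤ ⧸ Ideal.span {(ℓ : ℤ)}] (𝔹 ⧸ primeOf A) :=
    { frobenius (𝔹 ⧸ primeOf A) ℓ with
      commutes' := by
        intro r
        obtain ⟨n, rfl⟩ := Ideal.Quotient.mk_surjective r
        rw [Ideal.Quotient.algebraMap_mk_of_liesOver]
        have : (Ideal.Quotient.mk (primeOf A)) ((algebraMap ℤ 𝔹) n) =
            ((n : ℤ) : 𝔹 ⧸ primeOf A) := by simp
        rw [this]
        exact map_intCast (frobenius (𝔹 ⧸ primeOf A) ℓ) n }
  have hFapply : ∀ y, F y = y ^ ℓ := fun y => rfl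
  have hbij : Function.Bijective F := by
    constructor
    · exact frobenius_inj (𝔹 ⧸ primeOf A) ℓ
    · intro y
      obtain ⟨z, hz⟩ := frobenius_quotient_surjective A ℓ hℓ y
      exact ⟨z, hz⟩
  let Fe : (𝔹 ⧸ primeOf A) ≃ₐ[ℤ ⧸ Ideal.span {(ℓ : ℤ)}] (𝔹 ⧸ primeOf A) :=
    AlgEquiv.ofBijective F hbij
  letI : TopologicalSpace 𝔹 := ⊥
  haveI : DiscreteTopology 𝔹 := ⟨rfl⟩
  haveI := compactSpace_gal
  haveI := totallyDisconnectedSpace_gal
  haveI := continuousSMul_gal
  haveI := isInvariant_gal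
  obtain ⟨τ, hτ⟩ := Ideal.Quotient.stabilizerHom_surjective_of_profinite (G := Γ)
    (Ideal.span {(ℓ : ℤ)}) (primeOf A) Fe
  refine ⟨τ.1, isFrobeniusAt_of_stabilizer A ℓ hℓ hA τ.1 τ.2 ?_⟩
  intro b
  have h1 := Ideal.Quotient.stabilizerHom_apply (primeOf A) (Ideal.span {(ℓ : ℤ)}) Γ τ b
  rw [hτ] at h1
  rw [← hFapply]
  exact h1.symm

/-- Existence of a valuation subring of `ℚ̄` over a prime `ℓ`. -/
theorem exists_liesOverPrime (ℓ : ℕ) (hℓ : ℓ.Prime) :
    ∃ A : ValuationSubring (AlgebraicClosure ℚ), A.LiesOverPrime ℓ := by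
  let A₀ : Subring Qb := (Int.castRingHom Qb).range
  let l₀ : A₀ := ⟨(ℓ : Qb), ⟨(ℓ : ℤ), by simp⟩⟩
  have hI : Ideal.span {l₀} ≠ ⊤ := by
    intro h
    rw [Ideal.eq_top_iff_one, Ideal.mem_span_singleton'] at h
    obtain ⟨⟨c, ⟨n, hn⟩⟩, hc⟩ := h
    have h1 : c * (ℓ : Qb) = 1 := congrArg Subtype.val hc
    rw [← hn] at h1
    have h2 : ((n * (ℓ : ℤ) : ℤ) : Qb) = ((1 : ℤ) : Qb) := by
      push_cast
      simpa using h1
    have h3 : n * (ℓ : ℤ) = 1 := Int.cast_injective h2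
    have h4 : IsUnit (ℓ : ℤ) := IsUnit.of_mul_eq_one n (by rw [mul_comm]; exact h3)
    exact (Nat.prime_iff_prime_int.mp hℓ).not_isUnit h4
  obtain ⟨B, -, hB⟩ := Ideal.image_subset_nonunits_valuationSubring (Ideal.span {l₀}) hI
  refine ⟨B, ?_⟩
  apply hB
  exact ⟨l₀, Ideal.subset_span (Set.mem_singleton _), rfl⟩

/-- Existence of Frobenius elements over every prime. -/
theorem exists_liesOverPrime_isFrobeniusAt (ℓ : ℕ) (hℓ : ℓ.Prime) :
    ∃ (A : ValuationSubring (AlgebraicClosure ℚ))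
      (σ : AlgebraicClosure ℚ ≃ₐ[ℚ] AlgebraicClosure ℚ),
      A.LiesOverPrime ℓ ∧ A.IsFrobeniusAt σ ℓ := by
  obtain ⟨A, hA⟩ := exists_liesOverPrime ℓ hℓ
  obtain ⟨σ, hσ⟩ := exists_isFrobeniusAt A ℓ hℓ hA
  exact ⟨A, σ, hA, hσ⟩

end

end Fermat.Agent.S54
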